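import Mathlib
import Fermat.Agent.H9.E6.Interfaces

/-!
# P-ES / E6-DESC (row 637, helper4): auxiliary lemmas for the special fibre descent

* integrality transfers along `coeffMap` (`intL_coeffMap`, `intL_descent`);
* the `k`-span `descSpan` of the image of `F_{k₁}` in `k((q))` contains `F_k`
  (`mem_descSpan_of_mem`).
-/

set_option autoImplicit false

noncomputable section

namespace Fermat.Agent.H4.E6

open Polynomial ModularCurve Fermat.Agent.H9.E6

/-! ### General integrality lemmas -/

section GeneralIntegral

theorem isIntegralElem_comp_of_isIntegral {R S T : Type*} [CommRing R] [CommRing S]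
    [CommRing T] (f : R →+* S) (g : S →+* T) (hf : f.IsIntegral) {x : T}
    (hx : g.IsIntegralElem x) : (g.comp f).IsIntegralElem x := by
  letI := f.toAlgebra
  letI := g.toAlgebra
  letI := (g.comp f).toAlgebra
  haveI : IsScalarTower R S T := IsScalarTower.of_algebraMap_eq fun _ => rfl
  haveI : Algebra.IsIntegral R S := ⟨hf⟩
  exact isIntegral_trans (R := R) (A := S) x hx

theorem mapRingHom_isIntegral (A B : Type*) [CommRing A] [CommRing B] [Algebra A B]
    [Algebra.IsIntegral A B] : (Polynomial.mapRingHom (algebraMap A B)).IsIntegral := by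
  intro p
  letI := Polynomial.algebra A B
  exact (Polynomial.isIntegral_iff_isIntegral_coeff (R := A)).2
    fun n => Algebra.IsIntegral.isIntegral _

end GeneralIntegral

/-! ### `coeffMap` -/

section CoeffMap

variable {K K' : Type} [Field K] [Field K']

/-- `aeval x` as a ring homomorphism. -/
abbrev aevalHom (K : Type) [Field K] (x : LaurentSeries K) : K[X] →+* LaurentSeries K :=
  ((Polynomial.aeval x : K[X] →ₐ[K] LaurentSeries K) : K[X] →+* LaurentSeries K)

theorem intL_iff (x y : LaurentSeries K) : IntL K x y ↔ (aevalHom K x).IsIntegralElem y :=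
  Iff.rfl

theorem coeffMap_algebraMap' (φ : K →+* K') (a : K) :
    coeffMap φ (algebraMap K (LaurentSeries K) a) = algebraMap K' (LaurentSeries K') (φ a) := by
  rw [algebraMap_laurentSeries_eq_single, algebraMap_laurentSeries_eq_single, coeffMap_single]

theorem coeffMap_injective (φ : K →+* K') : Function.Injective (coeffMap φ) := by
  intro x y h
  ext n
  have := congrArg (fun s : LaurentSeries K' => s.coeff n) h
  simp only [coeffMap_coeff] at this
  exact φ.injective this

theorem coeffMap_comp_aevalHom (φ : K →+* K') (x : LaurentSeries K) :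
    (coeffMap φ).comp (aevalHom K x)
      = (aevalHom K' (coeffMap φ x)).comp (Polynomial.mapRingHom φ) := by
  refine Polynomial.ringHom_ext (fun a => ?_) ?_
  · simp only [RingHom.comp_apply, AlgHom.coe_toRingHom, Polynomial.aeval_C,
      Polynomial.coe_mapRingHom, Polynomial.map_C]
    exact coeffMap_algebraMap' φ a
  · simp only [RingHom.comp_apply, AlgHom.coe_toRingHom, Polynomial.aeval_X,
      Polynomial.coe_mapRingHom, Polynomial.map_X]

/-- A coefficientwise ring endomorphism fixing `x` preserves integrality over `K[x]`. -/
theorem intL_coeffMap (φ : K →+* K) {x y : LaurentSeries K} (hx : coeffMap φ x = x)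
    (hy : IntL K x y) : IntL K x (coeffMap φ y) := by
  have h1 : ((coeffMap φ).comp (aevalHom K x)).IsIntegralElem (coeffMap φ y) :=
    RingHom.IsIntegralElem.map hy (coeffMap φ)
  rw [coeffMap_comp_aevalHom, hx] at h1
  exact RingHom.IsIntegralElem.of_comp h1

theorem intL_algebraMap (x : LaurentSeries K) (a : K) :
    IntL K x (algebraMap K (LaurentSeries K) a) := by
  have : aevalHom K x (Polynomial.C a) = algebraMap K (LaurentSeries K) a := by
    simp
  rw [intL_iff, ← this]
  exact RingHom.isIntegralElem_map _

theorem intL_mul {x y z : LaurentSeries K} (hy : IntL K x y) (hz : IntL K x z) :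
    IntL K x (y * z) :=
  RingHom.IsIntegralElem.mul _ hy hz

theorem intL_sum {ι : Type*} (x : LaurentSeries K) (s : Finset ι) (f : ι → LaurentSeries K)
    (h : ∀ i ∈ s, IntL K x (f i)) : IntL K x (∑ i ∈ s, f i) := by
  classical
  induction s using Finset.induction with
  | empty =>
    rw [Finset.sum_empty]
    exact RingHom.isIntegralElem_zero _
  | insert a s has ih =>
    rw [Finset.sum_insert has]
    exact RingHom.IsIntegralElem.add _ (h a (Finset.mem_insert_self a s))
      (ih fun i hi => h i (Finset.mem_insert_of_mem hi))

/-- Descent of integrality along an algebraic extension of the coefficient field. -/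
theorem intL_descent [Algebra K K'] [Algebra.IsIntegral K K'] {X z : LaurentSeries K}
    (h : IntL K' (coeffMap (algebraMap K K') X) (coeffMap (algebraMap K K') z)) :
    IntL K X z := by
  rw [intL_iff]
  refine RingHom.IsIntegralElem.of_map (g := coeffMap (algebraMap K K'))
    (coeffMap_injective _) ?_
  rw [coeffMap_comp_aevalHom]
  exact isIntegralElem_comp_of_isIntegral _ _ (mapRingHom_isIntegral K K') h

end CoeffMap

end Fermat.Agent.H4.E6
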