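import Mathlib
import Fermat.Agent.H4.E6.DescAux

/-!
# P-ES / E6-DESC (row 637, helper4): `F_k` is the `k`-span of the image of `F_{k₁}`

`mem_descSpan_of_mem : y ∈ modularFunctionFieldFullC k N → y ∈ descSpan N k₁ k` for an algebraic
extension `k / k₁` of fields.
-/

set_option autoImplicit false

noncomputable section

namespace Fermat.Agent.H4.E6

open Polynomial ModularCurve Fermat.Agent.H9.E6
open scoped Pointwise

theorem smul_eq_algebraMap_mul {K : Type} [Field K] (c : K) (x : LaurentSeries K) :
    c • x = algebraMap K (LaurentSeries K) c * x := by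
  rw [algebraMap_laurentSeries_eq_single, HahnSeries.single_zero_mul_eq_smul]

section Span

variable (N : ℕ) [NeZero N] (k₁ k : Type) [Field k₁] [Field k] [Algebra k₁ k]

/-- The image of `F_{k₁}` in `k((q))`. -/
def descImage : Subfield (LaurentSeries k) :=
  (modularFunctionFieldFullC k₁ N).toSubfield.map (coeffMap (algebraMap k₁ k))

omit [NeZero N] in
theorem mem_descImage {u : LaurentSeries k} :
    u ∈ descImage N k₁ k ↔
      ∃ w ∈ modularFunctionFieldFullC k₁ N, coeffMap (algebraMap k₁ k) w = u := by
  rw [descImage, Subfield.mem_map]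
  rfl

/-- The `k`-span of the image of `F_{k₁}`. -/
def descSpan : Submodule k (LaurentSeries k) :=
  Submodule.span k (descImage N k₁ k : Set (LaurentSeries k))

omit [NeZero N] in
theorem descSpan_mul {x y : LaurentSeries k} (hx : x ∈ descSpan N k₁ k)
    (hy : y ∈ descSpan N k₁ k) : x * y ∈ descSpan N k₁ k := by
  unfold descSpan at hx hy ⊢
  induction hx using Submodule.span_induction with
  | mem a ha =>
    induction hy using Submodule.span_induction with
    | mem b hb => exact Submodule.subset_span (mul_mem ha hb)
    | zero => rw [mul_zero]; exact Submodule.zero_mem _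
    | add b b' _ _ hb hb' => rw [mul_add]; exact Submodule.add_mem _ hb hb'
    | smul c b _ hb =>
      have : a * (c • b) = c • (a * b) := by
        rw [smul_eq_algebraMap_mul, smul_eq_algebraMap_mul]; ring
      rw [this]
      exact Submodule.smul_mem _ _ hb
  | zero => rw [zero_mul]; exact Submodule.zero_mem _
  | add a a' _ _ ha ha' => rw [add_mul]; exact Submodule.add_mem _ ha ha'
  | smul c a _ ha =>
    have : (c • a) * y = c • (a * y) := by
      rw [smul_eq_algebraMap_mul, smul_eq_algebraMap_mul]; ring
    rw [this]
    exact Submodule.smul_mem _ _ ha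

omit [NeZero N] in
theorem algebraMap_mem_descSpan (c : k) :
    algebraMap k (LaurentSeries k) c ∈ descSpan N k₁ k := by
  have h : algebraMap k (LaurentSeries k) c = c • (1 : LaurentSeries k) := by
    rw [smul_eq_algebraMap_mul, mul_one]
  rw [h]
  exact Submodule.smul_mem _ _ (Submodule.subset_span (one_mem (descImage N k₁ k)))

omit [NeZero N] in
theorem generator_mem_descImage {d : ℕ} [NeZero d] (hd : d ∣ N) :
    qExpand k d (jqModC k) ∈ descImage N k₁ k := by
  rw [mem_descImage]
  refine ⟨qExpand k₁ d (jqModC k₁), jqModCd_mem_full k₁ N hd, ?_⟩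
  rw [coeffMap_qExpand, coeffMap_jqModC]

variable [Algebra.IsAlgebraic k₁ k]

omit [NeZero N] in
/-- Constants are integral over the image field. -/
theorem isIntegral_algebraMap_descImage (c : k) :
    IsIntegral (descImage N k₁ k) (algebraMap k (LaurentSeries k) c) := by
  have hc : IsIntegral k₁ c := Algebra.IsIntegral.isIntegral c
  obtain ⟨P, hP, hPc⟩ := hc
  let g : k₁ →+* descImage N k₁ k :=
    ((coeffMap (algebraMap k₁ k)).comp (algebraMap k₁ (LaurentSeries k₁))).codRestrict
      (descImage N k₁ k)
      (fun a => (mem_descImage N k₁ k).2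
        ⟨_, (modularFunctionFieldFullC k₁ N).algebraMap_mem a, rfl⟩)
  refine ⟨P.map g, hP.map g, ?_⟩
  rw [Polynomial.eval₂_map]
  have hcomp : (algebraMap (descImage N k₁ k) (LaurentSeries k)).comp g
      = (algebraMap k (LaurentSeries k)).comp (algebraMap k₁ k) := by
    refine RingHom.ext fun a => ?_
    show coeffMap (algebraMap k₁ k) (algebraMap k₁ (LaurentSeries k₁) a)
      = algebraMap k (LaurentSeries k) (algebraMap k₁ k a)
    exact coeffMap_algebraMap' _ a
  rw [hcomp, ← Polynomial.hom_eval₂, hPc, map_zero]

/-- The subalgebra generated by the constants over the image field. -/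
def descAlg : Subalgebra (descImage N k₁ k) (LaurentSeries k) :=
  Algebra.adjoin (descImage N k₁ k) (Set.range (algebraMap k (LaurentSeries k)))

omit [NeZero N] in
theorem isIntegral_of_mem_descAlg {u : LaurentSeries k} (hu : u ∈ descAlg N k₁ k) :
    IsIntegral (descImage N k₁ k) u := by
  have hle : descAlg N k₁ k ≤ integralClosure (descImage N k₁ k) (LaurentSeries k) :=
    Algebra.adjoin_le (by
      rintro _ ⟨c, rfl⟩
      exact isIntegral_algebraMap_descImage N k₁ k c)
  exact hle hu

omit [NeZero N] [Algebra.IsAlgebraic k₁ k] in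
theorem descAlg_le_descSpan {u : LaurentSeries k} (hu : u ∈ descAlg N k₁ k) :
    u ∈ descSpan N k₁ k := by
  unfold descAlg at hu
  induction hu using Algebra.adjoin_induction with
  | mem x hx =>
    obtain ⟨c, rfl⟩ := hx
    exact algebraMap_mem_descSpan N k₁ k c
  | algebraMap r => exact Submodule.subset_span r.2
  | add x y _ _ hx hy => exact Submodule.add_mem _ hx hy
  | mul x y _ _ hx hy => exact descSpan_mul N k₁ k hx hy

omit [NeZero N] in
theorem mem_descAlg_of_mem {y : LaurentSeries k} (hy : y ∈ modularFunctionFieldFullC k N) :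
    y ∈ descAlg N k₁ k := by
  have hy' : y ∈ Subfield.closure
      (Set.range (algebraMap k (LaurentSeries k)) ∪ divisorExpansionsC k N) := hy
  clear hy
  induction hy' using Subfield.closure_induction with
  | mem x hx =>
    rcases hx with hx | ⟨d, hd, hdN, rfl⟩
    · exact Algebra.subset_adjoin hx
    · haveI := hd
      exact Subalgebra.algebraMap_mem _
        (⟨_, generator_mem_descImage N k₁ k hdN⟩ : descImage N k₁ k)
  | one => exact one_mem _
  | add x y _ _ hx hy => exact add_mem hx hy
  | neg x _ hx => exact neg_mem hx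
  | inv x _ hx =>
    exact Subalgebra.inv_mem_of_algebraic (A := descAlg N k₁ k) (x := ⟨x, hx⟩)
      (isIntegral_of_mem_descAlg N k₁ k hx).isAlgebraic
  | mul x y _ _ hx hy => exact mul_mem hx hy

omit [NeZero N] in
/-- `F_k` is contained in the `k`-span of the image of `F_{k₁}`. -/
theorem mem_descSpan_of_mem {y : LaurentSeries k} (hy : y ∈ modularFunctionFieldFullC k N) :
    y ∈ descSpan N k₁ k :=
  descAlg_le_descSpan N k₁ k (mem_descAlg_of_mem N k₁ k hy)

end Span

end Fermat.Agent.H4.E6
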