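import Mathlib
import Fermat.Agent.H4.E6.DescSpan

/-!
# P-ES / E6-DESC (row 637, helper4): special fibre descent

`specialFibreDescent : Fermat.Agent.H9.E6.SpecialFibreDescentStatement`.

`k₁` a finite field, `k` an algebraic extension.  An element `y` of `F_k` is a `k`-linear
combination `∑ⱼ cⱼ wⱼ` of elements of `F_{k₁}`; the `cⱼ` lie in a finite subfield `K'`, with a
basis `bᵢ` over `k₁` and trace-dual basis `bᵢ*`.  Then `y = ∑ᵢ bᵢ* zᵢ` with
`zᵢ = ∑ⱼ Tr(cⱼ bᵢ) wⱼ = ∑ₛ Φˢ(bᵢ y)`, where `Φ` is the coefficientwise Frobenius; the second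
description shows that integrality over `k[x̄]` is inherited by the `zᵢ`.
-/

set_option autoImplicit false

noncomputable section

namespace Fermat.Agent.H4.E6

open Polynomial ModularCurve Fermat.Agent.H9.E6

/-! ### Frobenius powers -/

section Frob

variable (k₁ k : Type) [Field k₁] [Finite k₁] [Field k] [Algebra k₁ k]

/-- The `s`-th power of the `#k₁`-Frobenius of `k`. -/
def frobPow (s : ℕ) : k →+* k :=
  letI := Fintype.ofFinite k₁
  ((FiniteField.frobeniusAlgHom k₁ k ^ s : k →ₐ[k₁] k) : k →+* k)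

theorem frobPow_apply (s : ℕ) (a : k) : frobPow k₁ k s a = a ^ (Nat.card k₁ ^ s) := by
  letI := Fintype.ofFinite k₁
  show (FiniteField.frobeniusAlgHom k₁ k ^ s) a = a ^ (Nat.card k₁ ^ s)
  rw [Nat.card_eq_fintype_card]
  induction s generalizing a with
  | zero => simp
  | succ s ih =>
    rw [pow_succ, AlgHom.mul_apply, ih, FiniteField.coe_frobeniusAlgHom, ← pow_mul, pow_succ']

theorem frobPow_algebraMap (s : ℕ) (a : k₁) :
    frobPow k₁ k s (algebraMap k₁ k a) = algebraMap k₁ k a := by
  letI := Fintype.ofFinite k₁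
  exact (FiniteField.frobeniusAlgHom k₁ k ^ s : k →ₐ[k₁] k).commutes a

theorem frobPow_comp_algebraMap (s : ℕ) :
    (frobPow k₁ k s).comp (algebraMap k₁ k) = algebraMap k₁ k :=
  RingHom.ext fun a => frobPow_algebraMap k₁ k s a

/-- The coefficientwise Frobenius fixes the image of `k₁((q))`. -/
theorem coeffMap_frobPow_coeffMap (s : ℕ) (w : LaurentSeries k₁) :
    coeffMap (frobPow k₁ k s) (coeffMap (algebraMap k₁ k) w) = coeffMap (algebraMap k₁ k) w := by
  rw [coeffMap_coeffMap, frobPow_comp_algebraMap]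

/-- The trace of a finite subfield as a sum of Frobenius powers. -/
theorem sum_frobPow_eq_trace (K' : IntermediateField k₁ k) [FiniteDimensional k₁ K'] (a : K') :
    ∑ s ∈ Finset.range (Module.finrank k₁ K'), frobPow k₁ k s (a : k)
      = algebraMap k₁ k (Algebra.trace k₁ K' a) := by
  haveI : Finite K' := Module.finite_of_finite k₁
  have h := FiniteField.algebraMap_trace_eq_sum_pow k₁ K' a
  have h2 := congrArg (fun u : K' => (u : k)) h
  simp only [AddSubmonoidClass.coe_finsetSum, SubmonoidClass.coe_pow] at h2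
  have h3 : ∑ s ∈ Finset.range (Module.finrank k₁ K'), frobPow k₁ k s (a : k)
      = ∑ s ∈ Finset.range (Module.finrank k₁ K'), (a : k) ^ (Nat.card k₁ ^ s) :=
    Finset.sum_congr rfl fun s _ => frobPow_apply k₁ k s _
  rw [h3, ← h2]
  rfl

end Frob

/-! ### The main theorem -/

section Main

variable (k₁ k : Type) [Field k₁] [Finite k₁] [Field k] [Algebra k₁ k]

/-- For `y = ∑ⱼ cⱼ wⱼ` with `cⱼ` in a finite subfield `K'` and `b ∈ K'`:
`∑ⱼ Tr(cⱼ b) wⱼ = ∑ₛ Φˢ (b y)`. -/
theorem coeffMap_traceComb (K' : IntermediateField k₁ k) [FiniteDimensional k₁ K'] {n : ℕ}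
    (c : Fin n → K') (w : Fin n → LaurentSeries k₁) (b : K') :
    coeffMap (algebraMap k₁ k)
        (∑ j, algebraMap k₁ (LaurentSeries k₁) (Algebra.trace k₁ K' (c j * b)) * w j)
      = ∑ s ∈ Finset.range (Module.finrank k₁ K'),
          coeffMap (frobPow k₁ k s) (algebraMap k (LaurentSeries k) (b : k) *
            ∑ j, algebraMap k (LaurentSeries k) (c j : k) *
              coeffMap (algebraMap k₁ k) (w j)) := by
  have hR : ∀ s, coeffMap (frobPow k₁ k s) (algebraMap k (LaurentSeries k) (b : k) *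
        ∑ j, algebraMap k (LaurentSeries k) (c j : k) * coeffMap (algebraMap k₁ k) (w j))
      = ∑ j, algebraMap k (LaurentSeries k) (frobPow k₁ k s ((c j * b : K') : k)) *
          coeffMap (algebraMap k₁ k) (w j) := by
    intro s
    rw [Finset.mul_sum, map_sum]
    refine Finset.sum_congr rfl fun j _ => ?_
    rw [← mul_assoc, map_mul, coeffMap_frobPow_coeffMap, ← map_mul, coeffMap_algebraMap']
    have : (b : k) * (c j : k) = ((c j * b : K') : k) := by
      rw [mul_comm]
      rfl
    rw [this]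
  simp_rw [hR]
  rw [Finset.sum_comm, map_sum]
  refine Finset.sum_congr rfl fun j _ => ?_
  rw [← Finset.sum_mul, ← map_sum, sum_frobPow_eq_trace, map_mul, coeffMap_algebraMap']

end Main

/-- **E6-DESC (special fibre descent).** -/
theorem specialFibreDescent : SpecialFibreDescentStatement := by
  intro N _ k₁ k _ _ _ _ _ _ X m y hy hint1 hint2
  classical
  have hyM : y ∈ descSpan N k₁ k := mem_descSpan_of_mem N k₁ k hy
  obtain ⟨n, c, g, hsum⟩ := Submodule.mem_span_set'.1 hyM
  have hg : ∀ j, ∃ w ∈ modularFunctionFieldFullC k₁ N,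
      coeffMap (algebraMap k₁ k) w = (g j : LaurentSeries k) :=
    fun j => (mem_descImage N k₁ k).1 (g j).2
  choose w hwF hw using hg
  -- a finite subfield containing the `c j`
  let K' : IntermediateField k₁ k := IntermediateField.adjoin k₁ (Set.range c)
  haveI : FiniteDimensional k₁ K' :=
    IntermediateField.finiteDimensional_adjoin (fun x _ => Algebra.IsIntegral.isIntegral x)
  have hcK : ∀ j, c j ∈ K' := fun j => IntermediateField.subset_adjoin _ _ ⟨j, rfl⟩
  let c' : Fin n → K' := fun j => ⟨c j, hcK j⟩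
  have hy_eq : y = ∑ j, algebraMap k (LaurentSeries k) (c' j : k) *
      coeffMap (algebraMap k₁ k) (w j) := by
    rw [← hsum]
    refine Finset.sum_congr rfl fun j _ => ?_
    rw [smul_eq_algebraMap_mul, hw]
  -- basis and trace-dual basis
  let b : Module.Basis (Fin (Module.finrank k₁ K')) k₁ K' := Module.finBasis k₁ K'
  have hnd := traceForm_nondegenerate k₁ K'
  let bd := (Algebra.traceForm k₁ K').dualBasis hnd b
  have hexp : ∀ a : K', a = ∑ i, Algebra.trace k₁ K' (a * b i) • bd i := by
    intro a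
    conv_lhs => rw [← bd.sum_repr a]
    refine Finset.sum_congr rfl fun i _ => ?_
    rw [LinearMap.BilinForm.dualBasis_repr_apply, Algebra.traceForm_apply]
  have hc_exp : ∀ j, (c' j : k)
      = ∑ i, algebraMap k₁ k (Algebra.trace k₁ K' (c' j * b i)) * (bd i : k) := by
    intro j
    have h := congrArg (fun u : K' => (u : k)) (hexp (c' j))
    simp only [AddSubmonoidClass.coe_finsetSum] at h
    refine h.trans (Finset.sum_congr rfl fun i _ => ?_)
    rw [IntermediateField.coe_smul, Algebra.smul_def]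
  let z : Fin (Module.finrank k₁ K') → LaurentSeries k₁ := fun i =>
    ∑ j, algebraMap k₁ (LaurentSeries k₁) (Algebra.trace k₁ K' (c' j * b i)) * w j
  have hz : ∀ i, coeffMap (algebraMap k₁ k) (z i)
      = ∑ s ∈ Finset.range (Module.finrank k₁ K'),
          coeffMap (frobPow k₁ k s) (algebraMap k (LaurentSeries k) (b i : k) * y) := by
    intro i
    rw [hy_eq]
    exact coeffMap_traceComb k₁ k K' c' w (b i)
  have hz' : ∀ i, coeffMap (algebraMap k₁ k) (z i)
      = ∑ j, algebraMap k (LaurentSeries k)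
          (algebraMap k₁ k (Algebra.trace k₁ K' (c' j * b i))) *
            coeffMap (algebraMap k₁ k) (w j) := by
    intro i
    show coeffMap (algebraMap k₁ k)
      (∑ j, algebraMap k₁ (LaurentSeries k₁) (Algebra.trace k₁ K' (c' j * b i)) * w j) = _
    rw [map_sum]
    refine Finset.sum_congr rfl fun j _ => ?_
    rw [map_mul, coeffMap_algebraMap']
  refine ⟨Module.finrank k₁ K', fun i => (bd i : k), z, ?_, fun i => ⟨?_, ?_, ?_⟩⟩
  · -- `y = ∑ i, bd i * z i`
    simp_rw [hz', Finset.mul_sum]
    rw [Finset.sum_comm, hy_eq]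
    refine Finset.sum_congr rfl fun j _ => ?_
    rw [hc_exp j, map_sum, Finset.sum_mul]
    refine Finset.sum_congr rfl fun i _ => ?_
    rw [map_mul]
    ring
  · -- `z i ∈ F_{k₁}`
    exact sum_mem fun j _ =>
      mul_mem ((modularFunctionFieldFullC k₁ N).algebraMap_mem _) (hwF j)
  · -- `z i` is integral over `k₁[X]`
    apply intL_descent (K' := k)
    rw [hz i]
    refine intL_sum _ _ _ fun s _ => ?_
    exact intL_coeffMap _ (coeffMap_frobPow_coeffMap k₁ k s X)
      (intL_mul (intL_algebraMap _ _) hint1)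
  · -- `X⁻ᵐ z i` is integral over `k₁[X⁻¹]`
    apply intL_descent (K' := k)
    have hinv : coeffMap (algebraMap k₁ k) X⁻¹ = (coeffMap (algebraMap k₁ k) X)⁻¹ :=
      map_inv₀ _ X
    have hfix : ∀ s, coeffMap (frobPow k₁ k s) (coeffMap (algebraMap k₁ k) X⁻¹)
        = coeffMap (algebraMap k₁ k) X⁻¹ := fun s => coeffMap_frobPow_coeffMap k₁ k s X⁻¹
    rw [map_mul, map_pow, hz i, Finset.mul_sum]
    refine intL_sum _ _ _ fun s _ => ?_
    have h1 : coeffMap (algebraMap k₁ k) X⁻¹ ^ m *
        coeffMap (frobPow k₁ k s) (algebraMap k (LaurentSeries k) (b i : k) * y)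
        = coeffMap (frobPow k₁ k s) (algebraMap k (LaurentSeries k) (b i : k) *
            (coeffMap (algebraMap k₁ k) X⁻¹ ^ m * y)) := by
      rw [map_mul, map_mul, map_mul, map_pow, hfix s]
      ring
    rw [h1]
    refine intL_coeffMap _ (hfix s) (intL_mul (intL_algebraMap _ _) ?_)
    rw [hinv]
    exact hint2

end Fermat.Agent.H4.E6
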